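import Fermat.Agent.HeckeHom.Op
import Fermat.Agent.S21

set_option autoImplicit false

/-!
# The Hecke algebra acts on integral parabolic homomorphisms
-/

open UpperHalfPlane hiding I
open ModularForm Complex Matrix.SpecialLinearGroup CongruenceSubgroup
open scoped MatrixGroups
open ModularCurve ModularCurve.Period
open Fermat.Agent.MFLib Fermat.Agent.Period

namespace Fermat.Agent.HeckeHom

noncomputable section

variable (N : ℕ) [NeZero N]

/-- weight two cusp forms -/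
abbrev S2 : Type := CuspForm (Gamma0 N) 2

/-- parabolic homomorphisms with values in `ℂ` -/
abbrev LC : Type := ↥(parabolicHoms ℂ (Gamma0 N) ℂ)

/-- parabolic homomorphisms with values in `ℤ` -/
abbrev LZ : Type := ↥(parabolicHoms ℤ (Gamma0 N) ℤ)

/-- Hecke operator `T_ℓ` on homomorphisms -/
def opT {ℓ : ℕ} (hℓ : ℓ.Prime) (hℓN : ¬ ℓ ∣ N) (A : Type*) [AddCommGroup A] :
    (Additive (Gamma0 N) →+ A) →+ (Additive (Gamma0 N) →+ A) :=
  haveI : NeZero ℓ := ⟨hℓ.ne_zero⟩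
  (isHeckeFam_T hℓ hℓN).op A

/-- Hecke operator `U_q` on homomorphisms -/
def opU {q : ℕ} (hqN : q ∣ N) (A : Type*) [AddCommGroup A] :
    (Additive (Gamma0 N) →+ A) →+ (Additive (Gamma0 N) →+ A) :=
  haveI : NeZero q := ⟨fun h => NeZero.ne N (Nat.eq_zero_of_zero_dvd (h ▸ hqN))⟩
  (isHeckeFam_U hqN).op A

variable {N}

/-- Eichler–Shimura is Hecke equivariant -/
theorem periodHomPair_T {ℓ : ℕ} (hℓ : ℓ.Prime) (hℓN : ¬ ℓ ∣ N) (p : S2 N × S2 N) :
    periodHomPair N (CuspForm.heckeTLin 2 hℓ hℓN p.1, CuspForm.heckeTLin 2 hℓ hℓN p.2) =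
      opT N hℓ hℓN ℂ (periodHomPair N p) := by
  have : NeZero ℓ := ⟨hℓ.ne_zero⟩
  ext γ
  exact (isHeckeFam_T hℓ hℓN).periodHomPair rfl rfl
    ((isHeckeFam_T hℓ hℓN).rel_elt (Additive.toMul γ))

/-- Eichler–Shimura is Hecke equivariant -/
theorem periodHomPair_U {q : ℕ} (hqN : q ∣ N) (p : S2 N × S2 N) :
    periodHomPair N (CuspForm.heckeULin 2 hqN p.1, CuspForm.heckeULin 2 hqN p.2) =
      opU N hqN ℂ (periodHomPair N p) := by
  have : NeZero q := ⟨fun h => NeZero.ne N (Nat.eq_zero_of_zero_dvd (h ▸ hqN))⟩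
  ext γ
  exact (isHeckeFam_U hqN).periodHomPair rfl rfl
    ((isHeckeFam_U hqN).rel_elt (Additive.toMul γ))

theorem periodMap_T {ℓ : ℕ} (hℓ : ℓ.Prime) (hℓN : ¬ ℓ ∣ N) (f : S2 N) :
    periodMap N (CuspForm.heckeTLin 2 hℓ hℓN f) = opT N hℓ hℓN ℂ (periodMap N f) := by
  have : NeZero ℓ := ⟨hℓ.ne_zero⟩
  ext γ
  exact periodMap_of_sum (isHeckeFam_T hℓ hℓN).det_pos ((isHeckeFam_T hℓ hℓN).sum_slash f)
    ((isHeckeFam_T hℓ hℓN).rel_elt (Additive.toMul γ))

theorem periodMap_U {q : ℕ} (hqN : q ∣ N) (f : S2 N) :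
    periodMap N (CuspForm.heckeULin 2 hqN f) = opU N hqN ℂ (periodMap N f) := by
  have : NeZero q := ⟨fun h => NeZero.ne N (Nat.eq_zero_of_zero_dvd (h ▸ hqN))⟩
  ext γ
  exact periodMap_of_sum (isHeckeFam_U hqN).det_pos ((isHeckeFam_U hqN).sum_slash f)
    ((isHeckeFam_U hqN).rel_elt (Additive.toMul γ))

theorem isParabolicHom_opT {ℓ : ℕ} (hℓ : ℓ.Prime) (hℓN : ¬ ℓ ∣ N) {A : Type*} [AddCommGroup A]
    {φ : Additive (Gamma0 N) →+ A} (hφ : IsParabolicHom (Gamma0 N) φ) :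
    IsParabolicHom (Gamma0 N) (opT N hℓ hℓN A φ) :=
  haveI : NeZero ℓ := ⟨hℓ.ne_zero⟩
  (isHeckeFam_T hℓ hℓN).isParabolicHom_op hφ

theorem isParabolicHom_opU {q : ℕ} (hqN : q ∣ N) {A : Type*} [AddCommGroup A]
    {φ : Additive (Gamma0 N) →+ A} (hφ : IsParabolicHom (Gamma0 N) φ) :
    IsParabolicHom (Gamma0 N) (opU N hqN A φ) :=
  haveI : NeZero q := ⟨fun h => NeZero.ne N (Nat.eq_zero_of_zero_dvd (h ▸ hqN))⟩
  (isHeckeFam_U hqN).isParabolicHom_op hφ

theorem comp_opT {ℓ : ℕ} (hℓ : ℓ.Prime) (hℓN : ¬ ℓ ∣ N) {A B : Type*} [AddCommGroup A]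
    [AddCommGroup B] (u : A →+ B) (φ : Additive (Gamma0 N) →+ A) :
    u.comp (opT N hℓ hℓN A φ) = opT N hℓ hℓN B (u.comp φ) :=
  haveI : NeZero ℓ := ⟨hℓ.ne_zero⟩
  (isHeckeFam_T hℓ hℓN).comp_op u φ

theorem comp_opU {q : ℕ} (hqN : q ∣ N) {A B : Type*} [AddCommGroup A]
    [AddCommGroup B] (u : A →+ B) (φ : Additive (Gamma0 N) →+ A) :
    u.comp (opU N hqN A φ) = opU N hqN B (u.comp φ) :=
  haveI : NeZero q := ⟨fun h => NeZero.ne N (Nat.eq_zero_of_zero_dvd (h ▸ hqN))⟩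
  (isHeckeFam_U hqN).comp_op u φ

variable (N)

/-- the Eichler–Shimura isomorphism -/
def esEquiv : (S2 N × S2 N) ≃ₗ[ℂ] LC N :=
  (LinearEquiv.ofInjective (periodHomPair N) (Fermat.Agent.S21.result N).1).trans
    (LinearEquiv.ofEq _ _ (Fermat.Agent.S21.result N).2)

variable {N}

lemma esEquiv_coe (p : S2 N × S2 N) :
    ((esEquiv N p : LC N) : Additive (Gamma0 N) →+ ℂ) = periodHomPair N p := rfl

variable (N)

/-- extension of scalars -/
def castP : LZ N →ₗ[ℤ] LC N where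
  toFun φ := ⟨(Int.castAddHom ℂ).comp φ.1, fun γ hγ => by
    change ((φ.1 (Additive.ofMul γ) : ℤ) : ℂ) = 0
    rw [φ.2 γ hγ, Int.cast_zero]⟩
  map_add' φ ψ := by
    apply Subtype.ext
    ext γ
    exact Int.cast_add _ _
  map_smul' n φ := by
    apply Subtype.ext
    ext γ
    change ((n • φ.1 γ : ℤ) : ℂ) = n • ((φ.1 γ : ℤ) : ℂ)
    rw [smul_eq_mul, Int.cast_mul, zsmul_eq_mul]

variable {N}

lemma castP_apply (φ : LZ N) (γ : Additive (Gamma0 N)) : (castP N φ).1 γ = ((φ.1 γ : ℤ) : ℂ) := rfl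

lemma castP_injective : Function.Injective (castP N) := by
  intro φ ψ h
  apply Subtype.ext
  ext γ
  have h1 := congrArg (fun χ : LC N => χ.1 γ) h
  simp only [castP_apply] at h1
  exact_mod_cast h1

variable (N) (S : Set ℕ)

/-- the Hecke algebra acts on `Hom_par(Γ₀(N), ℂ)` -/
def actC : CuspForm.heckeAlgebra N 2 S →+* Module.End ℂ (LC N) where
  toFun t := (esEquiv N).toLinearMap ∘ₗ (t.1.prodMap t.1) ∘ₗ (esEquiv N).symm.toLinearMap
  map_one' := by
    ext1 φ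
    change esEquiv N (((esEquiv N).symm φ).1, ((esEquiv N).symm φ).2) = φ
    rw [Prod.mk.eta, LinearEquiv.apply_symm_apply]
  map_mul' s t := by
    ext1 φ
    simp only [LinearMap.comp_apply, LinearEquiv.coe_coe, Module.End.mul_apply,
      LinearEquiv.symm_apply_apply]
    rfl
  map_zero' := by
    ext1 φ
    change esEquiv N (0, 0) = 0
    exact map_zero (esEquiv N)
  map_add' s t := by
    ext1 φ
    simp only [LinearMap.comp_apply, LinearEquiv.coe_coe, LinearMap.add_apply]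
    rw [← map_add]
    rfl

variable {N S}

lemma actC_apply (t : CuspForm.heckeAlgebra N 2 S) (φ : LC N) :
    actC N S t φ = esEquiv N (t.1 ((esEquiv N).symm φ).1, t.1 ((esEquiv N).symm φ).2) := rfl

lemma actC_esEquiv (t : CuspForm.heckeAlgebra N 2 S) (p : S2 N × S2 N) :
    actC N S t (esEquiv N p) = esEquiv N (t.1 p.1, t.1 p.2) := by
  rw [actC_apply, LinearEquiv.symm_apply_apply]

lemma actC_T {ℓ : ℕ} (hℓ : ℓ.Prime) (hℓN : ¬ ℓ ∣ N) (hS : ℓ ∉ S) (φ : LC N) :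
    (actC N S (CuspForm.heckeAlgebra.T hℓ hℓN hS) φ).1 = opT N hℓ hℓN ℂ φ.1 := by
  rw [actC_apply, esEquiv_coe]
  change periodHomPair N (CuspForm.heckeTLin 2 hℓ hℓN ((esEquiv N).symm φ).1,
    CuspForm.heckeTLin 2 hℓ hℓN ((esEquiv N).symm φ).2) = _
  rw [periodHomPair_T, ← esEquiv_coe, LinearEquiv.apply_symm_apply]

lemma actC_U {q : ℕ} (hq : q.Prime) (hqN : q ∣ N) (hS : q ∉ S) (φ : LC N) :
    (actC N S (CuspForm.heckeAlgebra.U hq hqN hS) φ).1 = opU N hqN ℂ φ.1 := by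
  rw [actC_apply, esEquiv_coe]
  change periodHomPair N (CuspForm.heckeULin 2 hqN ((esEquiv N).symm φ).1,
    CuspForm.heckeULin 2 hqN ((esEquiv N).symm φ).2) = _
  rw [periodHomPair_U, ← esEquiv_coe, LinearEquiv.apply_symm_apply]

lemma actC_injective : Function.Injective (actC N S) := by
  rw [injective_iff_map_eq_zero]
  intro t ht
  apply Subtype.ext
  ext1 f
  have h := LinearMap.congr_fun ht (esEquiv N (f, 0))
  rw [actC_esEquiv, LinearMap.zero_apply, LinearEquiv.map_eq_zero_iff] at h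
  exact congrArg Prod.fst h

lemma castP_opT {ℓ : ℕ} (hℓ : ℓ.Prime) (hℓN : ¬ ℓ ∣ N) (hS : ℓ ∉ S) (φ : LZ N) :
    castP N ⟨opT N hℓ hℓN ℤ φ.1, isParabolicHom_opT hℓ hℓN φ.2⟩ =
      actC N S (CuspForm.heckeAlgebra.T hℓ hℓN hS) (castP N φ) := by
  apply Subtype.ext
  rw [actC_T]
  exact comp_opT hℓ hℓN (Int.castAddHom ℂ) φ.1

lemma castP_opU {q : ℕ} (hq : q.Prime) (hqN : q ∣ N) (hS : q ∉ S) (φ : LZ N) :
    castP N ⟨opU N hqN ℤ φ.1, isParabolicHom_opU hqN φ.2⟩ =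
      actC N S (CuspForm.heckeAlgebra.U hq hqN hS) (castP N φ) := by
  apply Subtype.ext
  rw [actC_U]
  exact comp_opU hqN (Int.castAddHom ℂ) φ.1

/-- stability of the lattice -/
lemma exists_act (t : CuspForm.heckeAlgebra N 2 S) (φ : LZ N) :
    ∃ ψ : LZ N, castP N ψ = actC N S t (castP N φ) := by
  obtain ⟨t, ht⟩ := t
  induction ht using Algebra.adjoin_induction generalizing φ with
  | mem x hx =>
    rcases hx with ⟨ℓ, hℓ, hℓN, hℓS, rfl⟩ | ⟨q, hqN, hq, hqS, rfl⟩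
    · exact ⟨_, castP_opT hℓ hℓN hℓS φ⟩
    · exact ⟨_, castP_opU hq hqN hqS φ⟩
  | algebraMap r =>
    refine ⟨r • φ, ?_⟩
    have h1 : (⟨algebraMap ℤ _ r, Subalgebra.algebraMap_mem _ r⟩ : CuspForm.heckeAlgebra N 2 S) =
      ((r : ℤ) : CuspForm.heckeAlgebra N 2 S) := by
      apply Subtype.ext
      simp
    have h2 : actC N S ⟨algebraMap ℤ _ r, Subalgebra.algebraMap_mem _ r⟩ = (r : Module.End ℂ (LC N)) := by
      rw [h1, map_intCast]
    rw [map_smul]
    refine Eq.trans ?_ (LinearMap.congr_fun h2.symm (castP N φ))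
    rw [← zsmul_one, LinearMap.smul_apply, Module.End.one_apply]
  | add x y hx hy ihx ihy =>
    obtain ⟨ψ₁, h₁⟩ := ihx φ
    obtain ⟨ψ₂, h₂⟩ := ihy φ
    refine ⟨ψ₁ + ψ₂, ?_⟩
    rw [map_add, h₁, h₂, ← LinearMap.add_apply, ← map_add]
    rfl
  | mul x y hx hy ihx ihy =>
    obtain ⟨ψ₂, h₂⟩ := ihy φ
    obtain ⟨ψ₁, h₁⟩ := ihx ψ₂
    refine ⟨ψ₁, ?_⟩
    rw [h₁, h₂, ← Module.End.mul_apply, ← map_mul]
    rfl

/-- auxiliary function -/
def actFun (t : CuspForm.heckeAlgebra N 2 S) (φ : LZ N) : LZ N := (exists_act t φ).choose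

lemma castP_actFun (t : CuspForm.heckeAlgebra N 2 S) (φ : LZ N) :
    castP N (actFun t φ) = actC N S t (castP N φ) := (exists_act t φ).choose_spec

variable (N S)

/-- the Hecke algebra acts on `Hom_par(Γ₀(N), ℤ)` -/
def actL : CuspForm.heckeAlgebra N 2 S →+* Module.End ℤ (LZ N) where
  toFun t :=
    { toFun := actFun t
      map_add' := fun φ ψ => castP_injective (by
        rw [castP_actFun, map_add, map_add, map_add, castP_actFun, castP_actFun])
      map_smul' := fun n φ => castP_injective (by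
        rw [castP_actFun, map_smul, map_zsmul, RingHom.id_apply, map_smul, castP_actFun]) }
  map_one' := LinearMap.ext fun φ => castP_injective (by
    change castP N (actFun 1 φ) = castP N φ
    rw [castP_actFun, map_one, Module.End.one_apply])
  map_mul' s t := LinearMap.ext fun φ => castP_injective (by
    change castP N (actFun (s * t) φ) = castP N (actFun s (actFun t φ))
    rw [castP_actFun, castP_actFun, castP_actFun, map_mul, Module.End.mul_apply])
  map_zero' := LinearMap.ext fun φ => castP_injective (by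
    change castP N (actFun 0 φ) = castP N 0
    rw [castP_actFun, map_zero, LinearMap.zero_apply, map_zero])
  map_add' s t := LinearMap.ext fun φ => castP_injective (by
    change castP N (actFun (s + t) φ) = castP N (actFun s φ + actFun t φ)
    rw [castP_actFun, map_add, map_add, castP_actFun, castP_actFun, LinearMap.add_apply])

variable {N S}

lemma castP_actL (t : CuspForm.heckeAlgebra N 2 S) (φ : LZ N) :
    castP N (actL N S t φ) = actC N S t (castP N φ) := castP_actFun t φ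

theorem actL_T {ℓ : ℕ} (hℓ : ℓ.Prime) (hℓN : ¬ ℓ ∣ N) (hS : ℓ ∉ S) (φ : LZ N) :
    (actL N S (CuspForm.heckeAlgebra.T hℓ hℓN hS) φ).1 = opT N hℓ hℓN ℤ φ.1 := by
  have h : actL N S (CuspForm.heckeAlgebra.T hℓ hℓN hS) φ =
      ⟨opT N hℓ hℓN ℤ φ.1, isParabolicHom_opT hℓ hℓN φ.2⟩ :=
    castP_injective (by rw [castP_actL, castP_opT])
  rw [h]

theorem actL_U {q : ℕ} (hq : q.Prime) (hqN : q ∣ N) (hS : q ∉ S) (φ : LZ N) :
    (actL N S (CuspForm.heckeAlgebra.U hq hqN hS) φ).1 = opU N hqN ℤ φ.1 := by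
  have h : actL N S (CuspForm.heckeAlgebra.U hq hqN hS) φ =
      ⟨opU N hqN ℤ φ.1, isParabolicHom_opU hqN φ.2⟩ :=
    castP_injective (by rw [castP_actL, castP_opU])
  rw [h]

end

end Fermat.Agent.HeckeHom
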