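import Fermat.Agent.HeckeHom.Action

set_option autoImplicit false

/-!
# Finiteness and faithfulness of `Hom_par(Γ₀(N), ℤ)`
-/

open Matrix.SpecialLinearGroup CongruenceSubgroup
open scoped MatrixGroups
open ModularCurve ModularCurve.Period

namespace Fermat.Agent.HeckeHom

noncomputable section

lemma fg_SL : Group.FG SL(2, ℤ) := by
  rw [Group.fg_iff]
  exact ⟨_, SpecialLinearGroup.SL2Z_generators, Set.toFinite _⟩

variable (N : ℕ) [NeZero N]

lemma fg_Gamma0 : Group.FG (Gamma0 N) := by
  have := fg_SL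
  infer_instance

/-- the set of parabolic elements (and `±1`) -/
def parSet : Set (Gamma0 N) :=
  {γ | ((γ : SL(2, ℤ)) : Matrix (Fin 2) (Fin 2) ℤ).trace ^ 2 = 4}

/-- `Γ₀(N)^ab` modulo parabolic elements -/
abbrev Q : Type :=
  Abelianization (Gamma0 N) ⧸ Subgroup.closure (Abelianization.of '' parSet N)

/-- projection -/
def prQ : Gamma0 N →* Q N := (QuotientGroup.mk' _).comp Abelianization.of

lemma prQ_surjective : Function.Surjective (prQ N) := by
  intro x
  obtain ⟨y, rfl⟩ := QuotientGroup.mk'_surjective _ x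
  obtain ⟨z, rfl⟩ := QuotientGroup.mk_surjective y
  exact ⟨z, rfl⟩

lemma prQ_eq_one {γ : Gamma0 N} (h : γ ∈ parSet N) : prQ N γ = 1 := by
  change ((Abelianization.of γ : Abelianization (Gamma0 N)) : Q N) = 1
  rw [QuotientGroup.eq_one_iff]
  exact Subgroup.subset_closure ⟨γ, h, rfl⟩

/-- `Q` as an additive group -/
abbrev QA : Type := Additive (Q N)

instance finite_QA : Module.Finite ℤ (QA N) := by
  have h1 := fg_Gamma0 N
  have h2 : Group.FG (Q N) := Group.fg_of_surjective (prQ_surjective N)
  have h3 : AddGroup.FG (QA N) := inferInstance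
  exact Module.Finite.iff_addGroup_fg.mpr h3

variable {N}

/-- the factorisation of a parabolic homomorphism -/
def fac {A : Type*} [AddCommGroup A] (φ : Additive (Gamma0 N) →+ A)
    (hφ : IsParabolicHom (Gamma0 N) φ) : QA N →+ A :=
  MonoidHom.toAdditiveLeft (QuotientGroup.lift _
    (Abelianization.lift (AddMonoidHom.toMultiplicativeRight φ)) (by
      rw [Subgroup.closure_le]
      rintro _ ⟨γ, hγ, rfl⟩
      exact congrArg Multiplicative.ofAdd (hφ γ hγ)))

lemma fac_apply {A : Type*} [AddCommGroup A] (φ : Additive (Gamma0 N) →+ A)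
    (hφ : IsParabolicHom (Gamma0 N) φ) (γ : Gamma0 N) :
    fac φ hφ (Additive.ofMul (prQ N γ)) = φ (Additive.ofMul γ) := rfl

/-- the parabolic homomorphism attached to a homomorphism on `Q` -/
def unfac {A : Type*} [AddCommGroup A] (u : QA N →+ A) : Additive (Gamma0 N) →+ A :=
  u.comp (MonoidHom.toAdditive (prQ N))

lemma unfac_apply {A : Type*} [AddCommGroup A] (u : QA N →+ A) (γ : Gamma0 N) :
    unfac u (Additive.ofMul γ) = u (Additive.ofMul (prQ N γ)) := rfl

lemma isParabolicHom_unfac {A : Type*} [AddCommGroup A] (u : QA N →+ A) :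
    IsParabolicHom (Gamma0 N) (unfac u) := by
  intro γ hγ
  rw [unfac_apply, prQ_eq_one N hγ, ofMul_one, map_zero]

variable (N)

/-- the torsion-free quotient -/
abbrev FQ : Type := QA N ⧸ Submodule.torsion ℤ (QA N)

instance free_FQ : Module.Free ℤ (FQ N) := Module.free_of_finite_type_torsion_free'

/-- every complex parabolic homomorphism is a combination of integral ones -/
theorem span_castP : Submodule.span ℂ (Set.range (castP N)) = ⊤ := by
  rw [eq_top_iff]
  rintro φ -
  let u : QA N →ₗ[ℤ] ℂ := (fac φ.1 φ.2).toIntLinearMap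
  have hu : Submodule.torsion ℤ (QA N) ≤ LinearMap.ker u := by
    intro x hx
    rw [Submodule.mem_torsion_iff] at hx
    obtain ⟨a, ha⟩ := hx
    rw [LinearMap.mem_ker]
    have h1 : (a : ℤ) • u x = 0 := by
      rw [← map_smul]
      have : (a : ℤ) • x = 0 := ha
      rw [this, map_zero]
    rcases smul_eq_zero.mp h1 with h | h
    · exact absurd h (nonZeroDivisors.coe_ne_zero a)
    · exact h
  let v : FQ N →ₗ[ℤ] ℂ := Submodule.liftQ _ u hu
  let b := Module.Free.chooseBasis ℤ (FQ N)
  let ψ : Module.Free.ChooseBasisIndex ℤ (FQ N) → LZ N := fun i =>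
    ⟨unfac ((b.coord i ∘ₗ Submodule.mkQ _).toAddMonoidHom), isParabolicHom_unfac _⟩
  have key : φ = ∑ i, v (b i) • castP N (ψ i) := by
    apply Subtype.ext
    refine AddMonoidHom.ext fun γ => ?_
    obtain ⟨γ, rfl⟩ := Additive.ofMul.surjective γ
    have h1 : φ.1 (Additive.ofMul γ) = v (Submodule.Quotient.mk (Additive.ofMul (prQ N γ))) := rfl
    have h2 : (Submodule.Quotient.mk (Additive.ofMul (prQ N γ)) : FQ N) =
      ∑ i, b.repr (Submodule.Quotient.mk (Additive.ofMul (prQ N γ))) i • b i := (b.sum_repr _).symm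
    rw [h1, h2, map_sum]
    rw [AddSubmonoidClass.coe_finset_sum, AddMonoidHom.finset_sum_apply]
    refine Finset.sum_congr rfl fun i _ => ?_
    rw [map_smul, zsmul_eq_mul, mul_comm]
    rfl
  rw [key]
  exact Submodule.sum_mem _ fun i _ => Submodule.smul_mem _ _ (Submodule.subset_span ⟨_, rfl⟩)

variable {S : Set ℕ}

/-- the action is faithful -/
theorem actL_injective : Function.Injective (actL N S) := by
  rw [injective_iff_map_eq_zero]
  intro t ht
  apply actC_injective
  rw [map_zero]
  refine LinearMap.ext_on_range (span_castP N) fun φ => ?_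
  rw [← castP_actL, ht, LinearMap.zero_apply, LinearMap.zero_apply, map_zero]

instance finite_LZ : Module.Finite ℤ (LZ N) := by
  let e : LZ N →ₗ[ℤ] (QA N →ₗ[ℤ] ℤ) :=
    { toFun := fun φ => (fac φ.1 φ.2).toIntLinearMap
      map_add' := fun φ ψ => by
        ext x
        obtain ⟨x, rfl⟩ := Additive.ofMul.surjective x
        obtain ⟨γ, rfl⟩ := prQ_surjective N x
        rfl
      map_smul' := fun n φ => by
        ext x
        obtain ⟨x, rfl⟩ := Additive.ofMul.surjective x
        obtain ⟨γ, rfl⟩ := prQ_surjective N x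
        rfl }
  refine Module.Finite.of_injective e fun φ ψ h => ?_
  apply Subtype.ext
  ext γ
  obtain ⟨γ, rfl⟩ := Additive.ofMul.surjective γ
  exact LinearMap.congr_fun h (Additive.ofMul (prQ N γ))

instance torsionFree_LZ : IsAddTorsionFree (LZ N) where
  nsmul_right_injective n hn φ ψ h := by
    apply Subtype.ext
    ext γ
    have h1 := congrArg (fun χ : LZ N => χ.1 γ) h
    have h2 : (n : ℤ) * φ.1 γ = n * ψ.1 γ := by
      have h3 : ∀ χ : LZ N, (n • χ).1 γ = (n : ℤ) * χ.1 γ := fun χ => by
        rw [← nsmul_eq_mul]; rfl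
      rw [← h3, ← h3]; exact h1
    exact mul_left_cancel₀ (by exact_mod_cast hn) h2

instance free_LZ : Module.Free ℤ (LZ N) := Module.free_of_finite_type_torsion_free'

end

end Fermat.Agent.HeckeHom
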