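import Fermat.Agent.Period.Equiv
import Fermat.Prelude.Def_CuspForm_HeckeAlgebra
import Fermat.Prelude.Sol.S_ModularForm_heckeT_slash_eq_self_of_mem_Gamma0

set_option autoImplicit false

/-!
# Hecke equivariance of the period map
-/

open UpperHalfPlane hiding I
open ModularForm Complex Filter Topology Matrix.SpecialLinearGroup Metric CongruenceSubgroup
open scoped MatrixGroups Manifold Real
open ModularCurve ModularCurve.Period
open Fermat.Agent.MFLib Fermat.Agent.Period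

namespace Fermat.Agent.HeckeHom

noncomputable section

lemma hasDerivAt_comp_smul_GL {F f : ℍ → ℂ} (hF : ∀ τ : ℍ, HasDerivAt (F ∘ ofComplex) (f τ) τ)
    (δ : GL (Fin 2) ℝ) (hdet : 0 < (δ : Matrix (Fin 2) (Fin 2) ℝ).det) (τ : ℍ) :
    HasDerivAt ((fun w : ℍ => F (δ • w)) ∘ ofComplex) ((f ∣[(2 : ℤ)] δ) τ) τ := by
  have h1 := (hasStrictDerivAt_smul (g := δ) hdet τ).hasDerivAt
  have h2 : HasDerivAt (F ∘ ofComplex) (f (δ • τ))
      ((fun z : ℂ => ((δ • ofComplex z : ℍ) : ℂ)) (τ : ℂ)) := by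
    have := hF (δ • τ)
    simpa using this
  have h3 := h2.comp (τ : ℂ) h1
  have h4 : (F ∘ ofComplex) ∘ (fun z : ℂ => ((δ • ofComplex z : ℍ) : ℂ)) =
      ((fun w : ℍ => F (δ • w)) ∘ ofComplex) := by
    funext z
    simp only [Function.comp_apply, ofComplex_apply]
  rw [h4] at h3
  have h5 : (f ∣[(2 : ℤ)] δ) τ =
      f (δ • τ) * ((((δ : Matrix (Fin 2) (Fin 2) ℝ).det : ℝ) : ℂ) / denom δ τ ^ 2) := by
    rw [ModularForm.slash_apply]
    have hσ : UpperHalfPlane.σ δ = .refl ℝ ℂ := by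
      rw [UpperHalfPlane.σ, if_pos]
      rw [Matrix.GeneralLinearGroup.val_det_apply]; exact hdet
    rw [hσ, Matrix.GeneralLinearGroup.val_det_apply, abs_of_pos hdet]
    simp only [ContinuousAlgEquiv.refl_apply]
    have e : (2 : ℤ) - 1 = 1 := by norm_num
    rw [e, zpow_one, zpow_neg, div_eq_mul_inv]
    norm_cast
    ring
  rw [h5]
  exact h3

/-- the matrix `diag(-1, 1)` -/
def eps : GL (Fin 2) ℝ :=
  Matrix.GeneralLinearGroup.mkOfDetNeZero !![-1, 0; 0, 1] (by simp [Matrix.det_fin_two_of])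

lemma val_eps : ((eps : GL (Fin 2) ℝ) : Matrix (Fin 2) (Fin 2) ℝ) = !![-1, 0; 0, 1] := rfl

/-- transport data -/
def Rel {ι : Type*} (rep : ι → GL (Fin 2) ℝ) (N : ℕ) (γ : Gamma0 N) (σ : Equiv.Perm ι)
    (g : ι → Gamma0 N) : Prop :=
  ∀ x, rep x * mapGL ℝ (γ : SL(2, ℤ)) = mapGL ℝ (g x : SL(2, ℤ)) * rep (σ x)

/-- an abstract Hecke operator in weight two -/
structure IsHeckeFam (N : ℕ) {ι : Type*} [Fintype ι] (rep : ι → GL (Fin 2) ℝ)
    (T : (ℍ → ℂ) → (ℍ → ℂ)) : Prop where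
  det_pos : ∀ x, 0 < ((rep x : GL (Fin 2) ℝ) : Matrix (Fin 2) (Fin 2) ℝ).det
  sum_slash : ∀ f : ℍ → ℂ, T f = ∑ x, f ∣[(2 : ℤ)] rep x
  sum_slash_eps : ∀ f : ℍ → ℂ, (∀ γ : Gamma0 N, f ∣[(2 : ℤ)] (mapGL ℝ (γ : SL(2, ℤ))) = f) →
    T f = ∑ x, f ∣[(2 : ℤ)] (eps * rep x * eps)
  rel : ∀ γ : Gamma0 N, ∃ σ g, Rel rep N γ σ g
  inj : ∀ (x y : ι) (h : SL(2, ℤ)), mapGL ℝ h * rep x = rep y → x = y

variable {N : ℕ} [NeZero N]

lemma periodMap_of_sum {ι : Type*} [Fintype ι] {rep : ι → GL (Fin 2) ℝ}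
    (hdet : ∀ x, 0 < ((rep x : GL (Fin 2) ℝ) : Matrix (Fin 2) (Fin 2) ℝ).det)
    {f f' : CuspForm (Gamma0 N) 2} (hf : (f' : ℍ → ℂ) = ∑ x, (f : ℍ → ℂ) ∣[(2 : ℤ)] rep x)
    {γ : Gamma0 N} {σ : Equiv.Perm ι} {g : ι → Gamma0 N} (h : Rel rep N γ σ g) :
    periodMap N f' (Additive.ofMul γ) = ∑ x, periodMap N f (Additive.ofMul (g x)) := by
  obtain ⟨F, hF, -⟩ := exists_hasEquivariantPrimitive N f
  obtain ⟨G, hG, -⟩ := exists_hasEquivariantPrimitive N f'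
  have h1 : ∀ τ : ℍ, HasDerivAt ((fun w : ℍ => ∑ x, F (rep x • w)) ∘ ofComplex) (f' τ) τ := by
    intro τ
    have h2 : ((fun w : ℍ => ∑ x, F (rep x • w)) ∘ ofComplex) =
        ∑ x, ((fun w : ℍ => F (rep x • w)) ∘ ofComplex) := by
      funext z
      simp only [Function.comp_apply, Finset.sum_apply]
    rw [h2, hf, Finset.sum_apply]
    exact HasDerivAt.sum fun x _ => hasDerivAt_comp_smul_GL hF.1 (rep x) (hdet x) τ
  obtain ⟨c, hc⟩ := sub_const_of_hasDerivAt h1 hG.1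
  have z : ℍ := UpperHalfPlane.I
  rw [periodMap_apply hG γ z]
  have h3 : G ((γ : SL(2, ℤ)) • z) - G z =
      ∑ x, F (rep x • ((γ : SL(2, ℤ)) • z)) - ∑ x, F (rep x • z) := by
    rw [hc, hc]; ring
  rw [h3]
  have h4 : ∑ x, F (rep x • z) = ∑ x, F (rep (σ x) • z) :=
    (Equiv.sum_comp σ (fun x => F (rep x • z))).symm
  rw [h4, ← Finset.sum_sub_distrib]
  refine Finset.sum_congr rfl fun x _ => ?_
  rw [periodMap_apply hF (g x) (rep (σ x) • z)]
  have h5 : rep x • ((γ : SL(2, ℤ)) • z) = (g x : SL(2, ℤ)) • (rep (σ x) • z) := by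
    have h6 : rep x • ((γ : SL(2, ℤ)) • z) = (rep x * mapGL ℝ (γ : SL(2, ℤ))) • z := by
      rw [mul_smul]; rfl
    rw [h6, h x, mul_smul]; rfl
  rw [h5]

lemma eps_mul_mapGL_mul_eps (g : SL(2, ℤ)) : eps * mapGL ℝ g * eps = mapGL ℝ (jConjSL g) := by
  ext i j
  fin_cases i <;> fin_cases j <;>
    simp [val_eps, Matrix.mul_apply, Fin.sum_univ_two, jConjMat, Matrix.vecMul, dotProduct]

lemma eps_mul_eps : eps * eps = 1 := by
  ext i j
  fin_cases i <;> fin_cases j <;>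
    simp [val_eps, Matrix.mul_apply, Fin.sum_univ_two]

omit [NeZero N] in
lemma Rel.conj {ι : Type*} {rep : ι → GL (Fin 2) ℝ} {γ : Gamma0 N} {σ : Equiv.Perm ι}
    {g : ι → Gamma0 N} (h : Rel rep N γ σ g) :
    Rel (fun x => eps * rep x * eps) N (jConjGamma0 N γ) σ (fun x => jConjGamma0 N (g x)) := by
  intro x
  have h1 := h x
  simp only [jConjGamma0_coe]
  rw [← eps_mul_mapGL_mul_eps, ← eps_mul_mapGL_mul_eps]
  calc eps * rep x * eps * (eps * mapGL ℝ (γ : SL(2, ℤ)) * eps)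
      = eps * rep x * (eps * eps) * mapGL ℝ (γ : SL(2, ℤ)) * eps := by group
    _ = eps * (rep x * mapGL ℝ (γ : SL(2, ℤ))) * eps := by rw [eps_mul_eps]; group
    _ = eps * (mapGL ℝ (g x : SL(2, ℤ)) * rep (σ x)) * eps := by rw [h1]
    _ = eps * mapGL ℝ (g x : SL(2, ℤ)) * (eps * eps) * rep (σ x) * eps := by
        rw [eps_mul_eps]; group
    _ = _ := by group

lemma det_eps_conj_pos {g : GL (Fin 2) ℝ} (h : 0 < (g : Matrix (Fin 2) (Fin 2) ℝ).det) :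
    0 < ((eps * g * eps : GL (Fin 2) ℝ) : Matrix (Fin 2) (Fin 2) ℝ).det := by
  have h1 : (eps : Matrix (Fin 2) (Fin 2) ℝ).det = -1 := by
    rw [val_eps, Matrix.det_fin_two_of]; norm_num
  rw [Units.val_mul, Units.val_mul, Matrix.det_mul, Matrix.det_mul, h1]
  linarith

/-- Hecke equivariance of the pair of period maps. -/
theorem IsHeckeFam.periodHomPair {ι : Type*} [Fintype ι] {rep : ι → GL (Fin 2) ℝ}
    {T : (ℍ → ℂ) → (ℍ → ℂ)} (hT : IsHeckeFam N rep T)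
    {p p' : CuspForm (Gamma0 N) 2 × CuspForm (Gamma0 N) 2} (h1 : (p'.1 : ℍ → ℂ) = T p.1)
    (h2 : (p'.2 : ℍ → ℂ) = T p.2) {γ : Gamma0 N} {σ : Equiv.Perm ι} {g : ι → Gamma0 N}
    (h : Rel rep N γ σ g) :
    ModularCurve.periodHomPair N p' (Additive.ofMul γ) =
      ∑ x, ModularCurve.periodHomPair N p (Additive.ofMul (g x)) := by
  have hinv : ∀ f : CuspForm (Gamma0 N) 2, ∀ γ : Gamma0 N,
      (f : ℍ → ℂ) ∣[(2 : ℤ)] (mapGL ℝ (γ : SL(2, ℤ))) = f := fun f γ =>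
    SlashInvariantFormClass.slash_action_eq f _ (Subgroup.mem_map_of_mem (mapGL ℝ) γ.2)
  have key1 : ∀ f f' : CuspForm (Gamma0 N) 2, (f' : ℍ → ℂ) = T f →
      periodMap N f' (Additive.ofMul γ) = ∑ x, periodMap N f (Additive.ofMul (g x)) :=
    fun f f' hf => periodMap_of_sum hT.det_pos (hf.trans (hT.sum_slash f)) h
  have key2 : ∀ f f' : CuspForm (Gamma0 N) 2, (f' : ℍ → ℂ) = T f →
      periodMap N f' (Additive.ofMul (jConjGamma0 N γ)) =
        ∑ x, periodMap N f (Additive.ofMul (jConjGamma0 N (g x))) :=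
    fun f f' hf => periodMap_of_sum (fun x => det_eps_conj_pos (hT.det_pos x))
      (hf.trans (hT.sum_slash_eps f (hinv f))) h.conj
  simp only [periodHomPair_apply, map_add, map_sub, AddMonoidHom.add_apply, AddMonoidHom.sub_apply,
    charInvolution_apply, pml_apply, toMul_ofMul]
  rw [key1 _ _ h1, key1 _ _ h2, key2 _ _ h1, key2 _ _ h2]
  simp only [Finset.sum_add_distrib, Finset.sum_sub_distrib]

end

end Fermat.Agent.HeckeHom
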