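import Fermat.Agent.HeckeHom.Equiv

set_option autoImplicit false

/-!
# The Hecke operators `T_ℓ`, `U_q` as Hecke families
-/

open UpperHalfPlane hiding I
open ModularForm Complex Matrix.SpecialLinearGroup CongruenceSubgroup
open scoped MatrixGroups
open ModularCurve ModularCurve.Period
open Fermat.Agent.MFLib Fermat.Agent.Period
open P2MW.S_ModularForm_heckeT_slash_eq_self_of_mem_Gamma0.ModularForm.HeckeSlashInvariance
  (heckeRep redMatrix affinePerm heckeRep_mul heckeMatrix_mul_of_dvd heckeT_eq_sum_onePoint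
    heckeU_eq_sum_zmod)

namespace Fermat.Agent.HeckeHom

noncomputable section

/-- matrices for `U_ℓ` -/
def repU (ℓ : ℕ) (x : ZMod ℓ) : GL (Fin 2) ℝ := heckeMatrix ℓ x.val

/-- matrices for `T_ℓ` -/
def repT (ℓ : ℕ) (x : Option (ZMod ℓ)) : GL (Fin 2) ℝ := heckeRep ℓ x

lemma repT_none (ℓ : ℕ) : repT ℓ none = heckeDiagMatrix ℓ := rfl

lemma repT_some (ℓ : ℕ) (x : ZMod ℓ) : repT ℓ (some x) = repU ℓ x := rfl

lemma T_zpow_mem (N : ℕ) (m : ℤ) : ModularGroup.T ^ m ∈ Gamma0 N := by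
  rw [Gamma0_mem, ModularGroup.coe_T_zpow]; simp

lemma eps_repU {ℓ : ℕ} [NeZero ℓ] (x : ZMod ℓ) :
    ∃ m : ℤ, eps * repU ℓ x * eps = mapGL ℝ (ModularGroup.T ^ m) * repU ℓ (-x) := by
  have h : (ℓ : ℤ) ∣ -(x.val : ℤ) - ((-x).val : ℤ) := by
    rw [← ZMod.intCast_zmod_eq_zero_iff_dvd]
    push_cast
    rw [ZMod.natCast_zmod_val, ZMod.natCast_zmod_val]
    ring
  obtain ⟨m, hm⟩ := h
  refine ⟨m, ?_⟩
  have hm' : -(x.val : ℝ) - ((-x).val : ℝ) = ℓ * m := by exact_mod_cast hm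
  have hT : ((mapGL ℝ (ModularGroup.T ^ m) : GL (Fin 2) ℝ) : Matrix (Fin 2) (Fin 2) ℝ) =
      !![1, (m : ℝ); 0, 1] := by
    rw [mapGL_coe_matrix, Matrix.SpecialLinearGroup.map_apply_coe, RingHom.mapMatrix_apply,
      ModularGroup.coe_T_zpow]
    ext i j
    fin_cases i <;> fin_cases j <;> simp
  apply Units.ext
  rw [Units.val_mul, Units.val_mul, Units.val_mul, hT, val_eps, repU, repU,
    val_heckeMatrix (NeZero.ne ℓ), val_heckeMatrix (NeZero.ne ℓ)]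
  ext i j
  fin_cases i <;> fin_cases j <;>
    simp [Matrix.mul_apply, Fin.sum_univ_two]
  simp only [ZMod.natCast_val] at hm'
  linarith

lemma eps_heckeDiagMatrix {ℓ : ℕ} [NeZero ℓ] :
    eps * heckeDiagMatrix ℓ * eps = heckeDiagMatrix ℓ := by
  ext i j
  fin_cases i <;> fin_cases j <;>
    simp [val_eps, Matrix.mul_apply, Fin.sum_univ_two, Matrix.vecMul, dotProduct,
      val_heckeDiagMatrix (NeZero.ne ℓ)]

lemma slash_eps_repU {N ℓ : ℕ} [NeZero ℓ] {f : ℍ → ℂ}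
    (hf : ∀ γ : Gamma0 N, f ∣[(2 : ℤ)] (mapGL ℝ (γ : SL(2, ℤ))) = f) (x : ZMod ℓ) :
    f ∣[(2 : ℤ)] (eps * repU ℓ x * eps) = f ∣[(2 : ℤ)] repU ℓ (-x) := by
  obtain ⟨m, hm⟩ := eps_repU x
  rw [hm, SlashAction.slash_mul]
  congr 1
  exact hf ⟨_, T_zpow_mem N m⟩

lemma sum_slash_eps_repU {N ℓ : ℕ} [NeZero ℓ] {f : ℍ → ℂ}
    (hf : ∀ γ : Gamma0 N, f ∣[(2 : ℤ)] (mapGL ℝ (γ : SL(2, ℤ))) = f) :
    ∑ x, f ∣[(2 : ℤ)] (eps * repU ℓ x * eps) = ∑ x, f ∣[(2 : ℤ)] repU ℓ x := by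
  rw [← Equiv.sum_comp (Equiv.neg (ZMod ℓ)) (fun x => f ∣[(2 : ℤ)] repU ℓ x)]
  refine Finset.sum_congr rfl fun x _ => ?_
  rw [slash_eps_repU hf]
  rfl

lemma det_repU {ℓ : ℕ} [NeZero ℓ] (x : ZMod ℓ) :
    ((repU ℓ x : GL (Fin 2) ℝ) : Matrix (Fin 2) (Fin 2) ℝ).det = ℓ := by
  rw [repU, val_heckeMatrix (NeZero.ne ℓ), Matrix.det_fin_two_of]; ring

lemma det_repT {ℓ : ℕ} [NeZero ℓ] (x : Option (ZMod ℓ)) :
    ((repT ℓ x : GL (Fin 2) ℝ) : Matrix (Fin 2) (Fin 2) ℝ).det = ℓ := by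
  cases x with
  | none => rw [repT_none, val_heckeDiagMatrix (NeZero.ne ℓ), Matrix.det_fin_two_of]; ring
  | some x => rw [repT_some, det_repU]

lemma entries {A : Matrix (Fin 2) (Fin 2) ℝ} {g : GL (Fin 2) ℝ} (h : (g : Matrix (Fin 2) (Fin 2) ℝ) = A)
    (k : SL(2, ℤ)) (B : GL (Fin 2) ℝ) (hm : mapGL ℝ k * g = B) (i j : Fin 2) :
    (B : Matrix (Fin 2) (Fin 2) ℝ) i j = (k i 0 : ℝ) * A 0 j + (k i 1 : ℝ) * A 1 j := by
  rw [← hm, Units.val_mul, h, Matrix.mul_apply, Fin.sum_univ_two, mapGL_coe_matrix,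
    Matrix.SpecialLinearGroup.map_apply_coe, RingHom.mapMatrix_apply]
  simp

lemma repU_inj {ℓ : ℕ} [NeZero ℓ] (x y : ZMod ℓ) (h : SL(2, ℤ))
    (hm : mapGL ℝ h * repU ℓ x = repU ℓ y) : x = y := by
  have h0 : (ℓ : ℝ) ≠ 0 := by exact_mod_cast NeZero.ne ℓ
  have e := entries (val_heckeMatrix (NeZero.ne ℓ) x.val) h _ hm
  have e00 := e 0 0
  have e01 := e 0 1
  rw [repU, val_heckeMatrix (NeZero.ne ℓ)] at e00 e01
  simp only [Matrix.of_apply, Matrix.cons_val', Matrix.cons_val_zero, Matrix.cons_val_fin_one,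
    Matrix.cons_val_one, mul_one, mul_zero, add_zero] at e00 e01
  rw [← e00, one_mul] at e01
  have e2 : ((y.val : ℤ) : ℤ) = x.val + h 0 1 * ℓ := by exact_mod_cast e01
  have e3 := congrArg (Int.cast : ℤ → ZMod ℓ) e2
  push_cast at e3
  rw [ZMod.natCast_zmod_val, ZMod.natCast_zmod_val, ZMod.natCast_self, mul_zero, add_zero] at e3
  exact e3.symm

lemma repT_inj {ℓ : ℕ} (hℓ : ℓ.Prime) (x y : Option (ZMod ℓ)) (h : SL(2, ℤ))
    (hm : mapGL ℝ h * repT ℓ x = repT ℓ y) : x = y := by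
  have : NeZero ℓ := ⟨hℓ.ne_zero⟩
  have hne : ∀ m : ℤ, m * ℓ ≠ 1 := fun m hm => by
    have h1 : (ℓ : ℤ) ∣ 1 := ⟨m, by linarith⟩
    have h2 := Int.natCast_dvd_natCast.mp (by exact_mod_cast h1 : ((ℓ : ℕ) : ℤ) ∣ ((1 : ℕ) : ℤ))
    exact hℓ.one_lt.ne' (Nat.dvd_one.mp h2)
  cases x with
  | none =>
    cases y with
    | none => rfl
    | some y =>
      exfalso
      have e := entries (val_heckeDiagMatrix (NeZero.ne ℓ)) h _ hm 0 0
      rw [repT_some, repU, val_heckeMatrix (NeZero.ne ℓ)] at e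
      simp only [Matrix.of_apply, Matrix.cons_val', Matrix.cons_val_zero, Matrix.cons_val_fin_one,
        Matrix.cons_val_one, mul_one, mul_zero, add_zero] at e
      exact hne (h 0 0) (by exact_mod_cast e.symm)
  | some x =>
    cases y with
    | none =>
      exfalso
      have e := entries (val_heckeMatrix (NeZero.ne ℓ) x.val) h _ hm
      have e10 := e 1 0
      have e11 := e 1 1
      rw [repT_none, val_heckeDiagMatrix (NeZero.ne ℓ)] at e10 e11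
      simp only [Matrix.of_apply, Matrix.cons_val', Matrix.cons_val_zero, Matrix.cons_val_fin_one,
        Matrix.cons_val_one, mul_one, mul_zero, add_zero] at e10 e11
      rw [← e10, zero_mul, zero_add] at e11
      exact hne (h 1 1) (by exact_mod_cast e11.symm)
    | some y => rw [repU_inj x y h hm]

theorem isHeckeFam_U {N ℓ : ℕ} [NeZero N] (hℓN : ℓ ∣ N) [NeZero ℓ] :
    IsHeckeFam N (repU ℓ) (heckeU 2 ℓ) where
  det_pos x := by rw [det_repU]; exact_mod_cast Nat.pos_of_ne_zero (NeZero.ne ℓ)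
  sum_slash f := heckeU_eq_sum_zmod 2 f
  sum_slash_eps f hf := by rw [sum_slash_eps_repU hf]; exact heckeU_eq_sum_zmod 2 f
  rel γ := by
    have hc : (ℓ : ℤ) ∣ (γ : SL(2, ℤ)) 1 0 := by
      have h1 := (ZMod.intCast_zmod_eq_zero_iff_dvd _ _).mp (Gamma0_mem.mp γ.2)
      exact (Int.natCast_dvd_natCast.mpr hℓN).trans h1
    have h := heckeMatrix_mul_of_dvd (γ : SL(2, ℤ)) hc
    choose g hg hmul using h
    refine ⟨affinePerm (γ : SL(2, ℤ)) ((ZMod.intCast_zmod_eq_zero_iff_dvd _ _).mpr hc),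
      fun x => ⟨g x, ?_⟩, fun x => hmul x⟩
    rw [Gamma0_mem, hg]
    push_cast
    rw [Gamma0_mem.mp γ.2, mul_zero]
  inj := repU_inj

theorem isHeckeFam_T {N ℓ : ℕ} [NeZero N] (hℓ : ℓ.Prime) (hℓN : ¬ ℓ ∣ N) :
    haveI : NeZero ℓ := ⟨hℓ.ne_zero⟩
    IsHeckeFam N (repT ℓ) (heckeT 2 ℓ) :=
  haveI : NeZero ℓ := ⟨hℓ.ne_zero⟩
  haveI : Fact ℓ.Prime := ⟨hℓ⟩
  { det_pos := fun x => by rw [det_repT]; exact_mod_cast hℓ.pos
    sum_slash := fun f => heckeT_eq_sum_onePoint 2 f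
    sum_slash_eps := fun f hf => by
      rw [Fintype.sum_option]
      simp only [repT_none, repT_some]
      rw [eps_heckeDiagMatrix, sum_slash_eps_repU hf, heckeT_eq_heckeU_add, add_comm]
      congr 1
      exact heckeU_eq_sum_zmod 2 f
    rel := fun γ => by
      have hg : (N : ℤ) ∣ (γ : SL(2, ℤ)) 1 0 :=
        (ZMod.intCast_zmod_eq_zero_iff_dvd _ _).mp (Gamma0_mem.mp γ.2)
      have h := heckeRep_mul hℓN (γ : SL(2, ℤ)) hg
      choose g hgN hmul using h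
      refine ⟨MulAction.toPerm (α := GL (Fin 2) (ZMod ℓ)) (β := OnePoint (ZMod ℓ))
        (redMatrix ℓ (γ : SL(2, ℤ))),
        fun x => ⟨g x, Gamma0_mem.mpr ((ZMod.intCast_zmod_eq_zero_iff_dvd _ _).mpr (hgN x))⟩,
        fun x => hmul x⟩
    inj := repT_inj hℓ }

end

end Fermat.Agent.HeckeHom
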