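import Fermat.Agent.HeckeHom.Fam

set_option autoImplicit false

/-!
# Hecke operators on group homomorphisms `Γ₀(N) → A`
-/

open UpperHalfPlane hiding I
open ModularForm Complex Matrix.SpecialLinearGroup CongruenceSubgroup
open scoped MatrixGroups
open ModularCurve ModularCurve.Period
open Fermat.Agent.MFLib Fermat.Agent.Period

namespace Fermat.Agent.HeckeHom

noncomputable section

lemma mapGL_injective' : Function.Injective (mapGL ℝ : SL(2, ℤ) →* GL (Fin 2) ℝ) :=
  mapGL_injective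

section cycles

/-- sums over cycles -/
lemma sum_eq_zero_of_cycles {ι A : Type*} [Fintype ι] [AddCommMonoid A] (σ : Equiv.Perm ι)
    (c : ι → A) (h : ∀ x, ∀ r, 0 < r → (σ ^ r) x = x →
      ∑ i ∈ Finset.range r, c ((σ ^ i) x) = 0) : ∑ x, c x = 0 := by
  classical
  let s : Setoid ι := Equiv.Perm.SameCycle.setoid σ
  rw [← Finset.sum_fiberwise (s := (Finset.univ : Finset ι)) (g := fun x => (Quotient.mk s x))]
  refine Finset.sum_eq_zero fun q _ => ?_
  obtain ⟨x, rfl⟩ := Quotient.exists_rep q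
  -- minimal period
  set r := Function.minimalPeriod σ x with hr
  have hper : x ∈ Function.periodicPts σ := by
    have : Function.Injective σ := σ.injective
    exact this.mem_periodicPts x
  have hrpos : 0 < r := Function.minimalPeriod_pos_of_mem_periodicPts hper
  have hit : ∀ i : ℕ, (σ ^ i) x = σ^[i] x := fun i => by
    rw [Equiv.Perm.coe_pow]
  have hrx : (σ ^ r) x = x := by
    rw [hit]; exact Function.isPeriodicPt_minimalPeriod σ x
  rw [← h x r hrpos hrx]
  have hinj : Set.InjOn (fun i : ℕ => (σ ^ i) x) (Finset.range r : Set ℕ) := by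
    intro i hi j hj hij
    simp only [Finset.coe_range, Set.mem_Iio] at hi hj
    have hij' : σ^[i] x = σ^[j] x := by rw [← hit, ← hit]; exact hij
    exact (Function.iterate_injOn_Iio_minimalPeriod (f := σ) (x := x)) hi hj hij'
  rw [← Finset.sum_image (f := c) hinj]
  refine Finset.sum_congr ?_ fun _ _ => rfl
  ext y
  simp only [Finset.mem_filter, Finset.mem_univ, true_and, Finset.mem_image, Finset.mem_range]
  constructor
  · intro hy
    have h1 : σ.SameCycle y x := Quotient.exact hy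
    obtain ⟨i, hi⟩ := h1.symm.exists_pow_eq'
    refine ⟨i % r, Nat.mod_lt _ hrpos, ?_⟩
    rw [hit, hr, Function.iterate_mod_minimalPeriod_eq, ← hit]
    exact hi.2
  · rintro ⟨i, -, rfl⟩
    exact Quotient.sound (s := s) (Equiv.Perm.sameCycle_pow_left.mpr (Equiv.Perm.SameCycle.refl _ _))

end cycles

namespace IsHeckeFam

variable {N : ℕ} {ι : Type*} [Fintype ι] {rep : ι → GL (Fin 2) ℝ}
  {T : (ℍ → ℂ) → (ℍ → ℂ)}

lemma rel_unique (hT : IsHeckeFam N rep T) {γ : Gamma0 N} {σ σ' : Equiv.Perm ι}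
    {g g' : ι → Gamma0 N} (h : Rel rep N γ σ g) (h' : Rel rep N γ σ' g') : σ = σ' ∧ g = g' := by
  have key : ∀ x, σ x = σ' x ∧ g x = g' x := by
    intro x
    have e := (h x).symm.trans (h' x)
    have e1 : mapGL ℝ ((g' x : SL(2, ℤ))⁻¹ * (g x : SL(2, ℤ))) * rep (σ x) = rep (σ' x) := by
      rw [map_mul, map_inv, mul_assoc, e, inv_mul_cancel_left]
    have e2 := hT.inj _ _ _ e1
    refine ⟨e2, ?_⟩
    rw [e2] at e
    have e3 := mul_right_cancel e
    exact Subtype.ext (mapGL_injective' e3)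
  exact ⟨Equiv.ext fun x => (key x).1, funext fun x => (key x).2⟩

/-- the permutation attached to `γ` -/
def perm (hT : IsHeckeFam N rep T) (γ : Gamma0 N) : Equiv.Perm ι := (hT.rel γ).choose

/-- the elements attached to `γ` -/
def elt (hT : IsHeckeFam N rep T) (γ : Gamma0 N) : ι → Gamma0 N := (hT.rel γ).choose_spec.choose

lemma rel_elt (hT : IsHeckeFam N rep T) (γ : Gamma0 N) : Rel rep N γ (hT.perm γ) (hT.elt γ) :=
  (hT.rel γ).choose_spec.choose_spec

omit [Fintype ι] in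
lemma _root_.Fermat.Agent.HeckeHom.Rel.mul {γ δ : Gamma0 N} {σ τ : Equiv.Perm ι}
    {g h : ι → Gamma0 N} (h1 : Rel rep N γ σ g) (h2 : Rel rep N δ τ h) :
    Rel rep N (γ * δ) (τ * σ) (fun x => g x * h (σ x)) := by
  intro x
  rw [Subgroup.coe_mul, map_mul, ← mul_assoc, h1 x, mul_assoc, h2 (σ x), ← mul_assoc,
    Subgroup.coe_mul, map_mul]
  rfl

omit [Fintype ι] in
lemma _root_.Fermat.Agent.HeckeHom.Rel.one : Rel rep N 1 1 (fun _ => 1) := by
  intro x
  simp

lemma elt_mul (hT : IsHeckeFam N rep T) (γ δ : Gamma0 N) (x : ι) :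
    hT.elt (γ * δ) x = hT.elt γ x * hT.elt δ (hT.perm γ x) :=
  congrFun (hT.rel_unique (hT.rel_elt (γ * δ)) ((hT.rel_elt γ).mul (hT.rel_elt δ))).2 x

lemma perm_mul (hT : IsHeckeFam N rep T) (γ δ : Gamma0 N) :
    hT.perm (γ * δ) = hT.perm δ * hT.perm γ :=
  (hT.rel_unique (hT.rel_elt (γ * δ)) ((hT.rel_elt γ).mul (hT.rel_elt δ))).1

lemma perm_one (hT : IsHeckeFam N rep T) : hT.perm 1 = 1 :=
  (hT.rel_unique (hT.rel_elt 1) Rel.one).1

lemma elt_one (hT : IsHeckeFam N rep T) (x : ι) : hT.elt 1 x = 1 :=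
  congrFun (hT.rel_unique (hT.rel_elt 1) Rel.one).2 x

lemma perm_pow (hT : IsHeckeFam N rep T) (γ : Gamma0 N) (r : ℕ) :
    hT.perm (γ ^ r) = hT.perm γ ^ r := by
  induction r with
  | zero => rw [pow_zero, pow_zero, perm_one]
  | succ r ih => rw [pow_succ, perm_mul, ih, ← pow_succ']

variable {A : Type*} [AddCommGroup A]

/-- The Hecke operator on homomorphisms -/
def op (hT : IsHeckeFam N rep T) (A : Type*) [AddCommGroup A] :
    (Additive (Gamma0 N) →+ A) →+ (Additive (Gamma0 N) →+ A) where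
  toFun φ :=
    { toFun := fun γ => ∑ x, φ (Additive.ofMul (hT.elt (Additive.toMul γ) x))
      map_zero' := by
        refine Finset.sum_eq_zero fun x _ => ?_
        rw [toMul_zero, elt_one, ofMul_one, map_zero]
      map_add' := fun γ δ => by
        simp only [toMul_add, elt_mul, ofMul_mul, map_add, Finset.sum_add_distrib]
        congr 1
        exact Equiv.sum_comp (hT.perm (Additive.toMul γ))
          (fun x => φ (Additive.ofMul (hT.elt (Additive.toMul δ) x))) }
  map_zero' := by ext γ; simp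
  map_add' φ ψ := by
    ext γ
    simp [Finset.sum_add_distrib]

lemma op_apply (hT : IsHeckeFam N rep T) (φ : Additive (Gamma0 N) →+ A) (γ : Gamma0 N) :
    hT.op A φ (Additive.ofMul γ) = ∑ x, φ (Additive.ofMul (hT.elt γ x)) := rfl

lemma op_apply_of_rel (hT : IsHeckeFam N rep T) (φ : Additive (Gamma0 N) →+ A) {γ : Gamma0 N}
    {σ : Equiv.Perm ι} {g : ι → Gamma0 N} (h : Rel rep N γ σ g) :
    hT.op A φ (Additive.ofMul γ) = ∑ x, φ (Additive.ofMul (g x)) := by
  rw [op_apply, (hT.rel_unique (hT.rel_elt γ) h).2]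

/-- naturality -/
lemma comp_op {B : Type*} [AddCommGroup B] (hT : IsHeckeFam N rep T) (u : A →+ B)
    (φ : Additive (Gamma0 N) →+ A) : u.comp (hT.op A φ) = hT.op B (u.comp φ) := by
  ext γ
  change u (∑ x, φ (Additive.ofMul (hT.elt γ x))) = ∑ x, u (φ (Additive.ofMul (hT.elt γ x)))
  rw [map_sum]

lemma rep_conj (hT : IsHeckeFam N rep T) {γ : Gamma0 N} {x : ι} (h : hT.perm γ x = x) :
    rep x * mapGL ℝ (γ : SL(2, ℤ)) * (rep x)⁻¹ = mapGL ℝ (hT.elt γ x : SL(2, ℤ)) := by
  rw [hT.rel_elt γ x, h, mul_inv_cancel_right]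

lemma trace_elt (hT : IsHeckeFam N rep T) {γ : Gamma0 N} {x : ι} (h : hT.perm γ x = x) :
    ((hT.elt γ x : SL(2, ℤ)) : Matrix (Fin 2) (Fin 2) ℤ).trace =
      ((γ : SL(2, ℤ)) : Matrix (Fin 2) (Fin 2) ℤ).trace := by
  have h1 := congrArg (fun g : GL (Fin 2) ℝ => (g : Matrix (Fin 2) (Fin 2) ℝ).trace)
    (hT.rep_conj h)
  simp only [Units.val_mul] at h1
  rw [Matrix.trace_mul_comm, ← mul_assoc, Units.inv_mul, one_mul] at h1
  have h2 : ∀ g : SL(2, ℤ), ((mapGL ℝ g : GL (Fin 2) ℝ) : Matrix (Fin 2) (Fin 2) ℝ).trace =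
      ((g : Matrix (Fin 2) (Fin 2) ℤ).trace : ℝ) := by
    intro g
    rw [mapGL_coe_matrix, Matrix.SpecialLinearGroup.map_apply_coe, RingHom.mapMatrix_apply,
      Matrix.trace_fin_two, Matrix.trace_fin_two]
    simp
  rw [h2, h2] at h1
  exact_mod_cast h1.symm

lemma trace_pow_sq (γ : SL(2, ℤ)) (h : (γ : Matrix (Fin 2) (Fin 2) ℤ).trace ^ 2 = 4) (r : ℕ) :
    ((γ ^ r : SL(2, ℤ)) : Matrix (Fin 2) (Fin 2) ℤ).trace ^ 2 = 4 := by
  -- trace of powers through Cayley–Hamilton
  have h1 : (γ : Matrix (Fin 2) (Fin 2) ℤ).trace = 2 ∨ (γ : Matrix (Fin 2) (Fin 2) ℤ).trace = -2 := by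
    have : ((γ : Matrix (Fin 2) (Fin 2) ℤ).trace - 2) * ((γ : Matrix (Fin 2) (Fin 2) ℤ).trace + 2) = 0 := by
      linarith
    rcases mul_eq_zero.mp this with h | h
    · exact Or.inl (by linarith)
    · exact Or.inr (by linarith)
  obtain ⟨ε, hε, htr⟩ : ∃ ε : ℤ, ε ^ 2 = 1 ∧ (γ : Matrix (Fin 2) (Fin 2) ℤ).trace = 2 * ε := by
    rcases h1 with h1 | h1
    · exact ⟨1, by norm_num, by linarith⟩
    · exact ⟨-1, by norm_num, by linarith⟩
  have hdet := γ.det_coe
  rw [Matrix.det_fin_two] at hdet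
  have htr' := htr
  rw [Matrix.trace_fin_two] at htr'
  set M : Matrix (Fin 2) (Fin 2) ℤ := (γ : Matrix (Fin 2) (Fin 2) ℤ) with hM
  have hCH : M * M = (2 * ε) • M - 1 := by
    ext i j
    have hd : M 1 1 = 2 * ε - M 0 0 := by linarith
    rw [Matrix.mul_apply, Fin.sum_univ_two, Matrix.sub_apply, Matrix.smul_apply, smul_eq_mul,
      Matrix.one_apply]
    rw [hd] at hdet
    fin_cases i <;> fin_cases j <;>
      simp only [Fin.zero_eta, Fin.mk_one, Fin.isValue, hd, ↓reduceIte, zero_ne_one, one_ne_zero]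
    · linarith
    · ring
    · ring
    · linarith
  have key : ∀ r : ℕ, (M ^ r).trace = 2 * ε ^ r ∧ (M ^ (r + 1)).trace = 2 * ε ^ (r + 1) := by
    intro r
    induction r with
    | zero => exact ⟨by simp, by simp [htr]⟩
    | succ r ih =>
      refine ⟨ih.2, ?_⟩
      have h2 : M ^ (r + 1 + 1) = (2 * ε) • M ^ (r + 1) - M ^ r := by
        rw [pow_succ, pow_succ, mul_assoc, hCH, mul_sub, mul_smul_comm, mul_one]
      rw [h2, Matrix.trace_sub, Matrix.trace_smul, ih.1, ih.2, smul_eq_mul]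
      linear_combination (2 * ε ^ r) * hε
  rw [Matrix.SpecialLinearGroup.coe_pow, ← hM, (key r).1, mul_pow, ← pow_mul, mul_comm r 2,
    pow_mul, hε, one_pow]
  norm_num

/-- Hecke operators preserve parabolic homomorphisms -/
lemma isParabolicHom_op (hT : IsHeckeFam N rep T) {φ : Additive (Gamma0 N) →+ A}
    (hφ : IsParabolicHom (Gamma0 N) φ) : IsParabolicHom (Gamma0 N) (hT.op A φ) := by
  intro γ hγ
  rw [op_apply]
  apply sum_eq_zero_of_cycles (hT.perm γ)
  intro x r _ hr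
  have h1 : ∀ r : ℕ, φ (Additive.ofMul (hT.elt (γ ^ r) x)) =
      ∑ i ∈ Finset.range r, φ (Additive.ofMul (hT.elt γ ((hT.perm γ ^ i) x))) := by
    intro r
    induction r with
    | zero => simp [elt_one]
    | succ r ih =>
      rw [Finset.sum_range_succ, ← ih, pow_succ, elt_mul, ofMul_mul, map_add, perm_pow]
  rw [← h1]
  apply hφ
  rw [hT.trace_elt (by rw [perm_pow]; exact hr)]
  exact trace_pow_sq _ hγ r

end IsHeckeFam

end

end Fermat.Agent.HeckeHom
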